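import Fermat.Agent.Nullcone.Main
import Mathlib.RingTheory.AlgebraicIndependent.Basic
import Mathlib.FieldTheory.IsAlgClosed.AlgebraicClosure

/-!
# The invariants of a binary quartic

Moving a root to infinity and shearing brings a general quartic to `x³ y + p x y³ + q y⁴`, where
`I = -3 p` and `J = -27 q`. So the restriction of an invariant to these forms says which polynomial
in `I` and `J` it is, and the forms with a repeated root are read off.
-/

set_option autoImplicit false

noncomputable section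

open MvPolynomial

namespace FA.QuarticInvariants

open FA.CayleySylvester (lower raise lower_X raise_X prevIdx formOf formExp coeffsOf subst shear
  subst_shear subst_mul subst_one coeffsOf_formOf isHomogeneous_formOf invariant_iff)
open FA.Nullcone (lin lin_eq act_lin prodCoeff prodForm exists_prodCoeff subst_prodCoeff
  coeff_eq_zero_of_dvd formOf_prodCoeff)
open Fermat.Agent.ReflectionGroups (act act_X act_mul act_one isHomogeneous_act)

variable {k : Type*} [Field k]

variable (k) in
/-- The invariant of degree two. -/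
def invI : MvPolynomial (Fin 5) k :=
  C 12 * X 0 * X 4 - C 3 * X 1 * X 3 + X 2 ^ 2

variable (k) in
/-- The invariant of degree three. -/
def invJ : MvPolynomial (Fin 5) k :=
  C 72 * X 0 * X 2 * X 4 + C 9 * X 1 * X 2 * X 3 - C 27 * X 0 * X 3 ^ 2 - C 27 * X 4 * X 1 ^ 2 -
    C 2 * X 2 ^ 3

theorem eval_invI (c : Fin 5 → k) :
    eval c (invI k) = 12 * c 0 * c 4 - 3 * c 1 * c 3 + c 2 ^ 2 := by
  simp [invI]

theorem eval_invJ (c : Fin 5 → k) : eval c (invJ k) = 72 * c 0 * c 2 * c 4 + 9 * c 1 * c 2 * c 3 -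
    27 * c 0 * c 3 ^ 2 - 27 * c 4 * c 1 ^ 2 - 2 * c 2 ^ 3 := by
  simp [invJ]

theorem prevIdx_four : prevIdx (1 : Fin 5) = 0 ∧ prevIdx (2 : Fin 5) = 1 ∧
    prevIdx (3 : Fin 5) = 2 ∧ prevIdx (4 : Fin 5) = 3 :=
  ⟨rfl, rfl, rfl, rfl⟩

theorem lower_invI : lower 4 k (invI k) = 0 ∧ raise 4 k (invI k) = 0 := by
  obtain ⟨h1, h2, h3, h4⟩ := prevIdx_four
  constructor <;>
  · simp [invI, pow_succ, lower_X, raise_X, h1, h2, h3, h4]
    simp only [map_ofNat]
    ring

theorem lower_invJ : lower 4 k (invJ k) = 0 ∧ raise 4 k (invJ k) = 0 := by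
  obtain ⟨h1, h2, h3, h4⟩ := prevIdx_four
  constructor <;>
  · simp [invJ, pow_succ, lower_X, raise_X, h1, h2, h3, h4]
    simp only [map_ofNat]
    ring

/-- The forms of `x³ y + p x y³ + q y⁴`. -/
def normalForm (p q : k) : Fin 5 → k :=
  ![0, 1, 0, p, q]

theorem eval_invI_normal (p q : k) : eval (normalForm p q) (invI k) = -3 * p := by
  simp [eval_invI, normalForm]

theorem eval_invJ_normal (p q : k) : eval (normalForm p q) (invJ k) = -27 * q := by
  simp [eval_invJ, normalForm]

variable [CharZero k]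

/-- `P` is unchanged by the substitutions of determinant one. -/
abbrev IsInv (P : MvPolynomial (Fin 5) k) : Prop :=
  ∀ g : Matrix (Fin 2) (Fin 2) k, g.det = 1 → ∀ c : Fin (4 + 1) → k,
    eval (subst g c) P = eval c P

theorem isInv_invI : IsInv (invI k) :=
  (invariant_iff (d := 4) _).2 lower_invI

theorem isInv_invJ : IsInv (invJ k) :=
  (invariant_iff (d := 4) _).2 lower_invJ

theorem isInv_of_mem {P : MvPolynomial (Fin 5) k}
    (hP : P ∈ Algebra.adjoin k {invI k, invJ k}) : IsInv P := fun g hg c => by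
  induction hP using Algebra.adjoin_induction with
  | mem x hx => rcases hx with rfl | rfl <;> [exact isInv_invI g hg c; exact isInv_invJ g hg c]
  | algebraMap r => rw [MvPolynomial.algebraMap_eq, eval_C, eval_C]
  | add x y _ _ hx hy => rw [map_add, map_add, hx, hy]
  | mul x y _ _ hx hy => rw [map_mul, map_mul, hx, hy]

omit [CharZero k] in
theorem subst_diag (s : k) (c : Fin (4 + 1) → k) :
    subst (!![s, 0; 0, s⁻¹] : Matrix (Fin 2) (Fin 2) k) c =
      fun l : Fin (4 + 1) => c l * (s ^ (4 - (l : ℕ)) * s⁻¹ ^ (l : ℕ)) := by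
  conv_rhs => rw [← coeffsOf_formOf (d := 4) fun l : Fin (4 + 1) =>
    c l * (s ^ (4 - (l : ℕ)) * s⁻¹ ^ (l : ℕ))]
  refine congrArg (coeffsOf 4) ?_
  simp only [formOf, map_sum, map_mul, map_pow, act_X, Fin.sum_univ_two]
  refine Finset.sum_congr rfl fun l _ => ?_
  rw [show act (!![s, 0; 0, s⁻¹] : Matrix (Fin 2) (Fin 2) k) (C (c l)) = C (c l) from
    (act _).commutes _]
  simp [mul_pow]
  ring

omit [CharZero k] in
/-- Divisibility by a power of a linear form goes back along a substitution. -/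
theorem exists_dvd_of_subst {d m : ℕ} {g : Matrix (Fin 2) (Fin 2) k} (hg : g.det = 1)
    {c : Fin (d + 1) → k} {v : Fin 2 → k} (hv : v ≠ 0)
    (h : lin v ^ m ∣ formOf (subst g c)) :
    ∃ w : Fin 2 → k, w ≠ 0 ∧ lin w ^ m ∣ formOf c := by
  have e : g.adjugate * g = 1 := by rw [Matrix.adjugate_mul, hg, one_smul]
  refine ⟨g.adjugate.mulVec v, fun h0 => hv ?_, ?_⟩
  · have := congrArg g.mulVec h0
    rwa [Matrix.mulVec_mulVec, Matrix.mul_adjugate, hg, one_smul, Matrix.one_mulVec,
      Matrix.mulVec_zero] at this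
  · have h' := map_dvd (act g.adjugate) h
    rwa [map_pow, act_lin, subst,
      FA.CayleySylvester.formOf_coeffsOf (isHomogeneous_act g (isHomogeneous_formOf c)),
      ← act_mul, e, act_one] at h'

omit [CharZero k] in
/-- A linear form can be moved to `y`. -/
theorem exists_move {v : Fin 2 → k} (hv : v ≠ 0) :
    ∃ g : Matrix (Fin 2) (Fin 2) k, g.det = 1 ∧ g.mulVec v = ![0, 1] := by
  by_cases h1 : v 1 = 0
  · have h0 : v 0 ≠ 0 := fun h0 => hv (funext fun j => by fin_cases j <;> assumption)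
    refine ⟨!![0, -v 0; 1 / v 0, 0], by simp [Matrix.det_fin_two, h0], funext fun j => ?_⟩
    fin_cases j <;> simp [Matrix.mulVec, dotProduct, Fin.sum_univ_two, h0, h1]
  · refine ⟨!![v 1, -v 0; 0, 1 / v 1], by simp [Matrix.det_fin_two, h1], funext fun j => ?_⟩
    fin_cases j <;> simp [Matrix.mulVec, dotProduct, Fin.sum_univ_two, h1]
    ring

omit [CharZero k] in
theorem subst_eq_zero_of_dvd {m : ℕ} {g : Matrix (Fin 2) (Fin 2) k} {v : Fin 2 → k}
    (hgv : g.mulVec v = ![0, 1]) {c : Fin (4 + 1) → k} (h : lin v ^ m ∣ formOf c) {i : Fin (4 + 1)}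
    (hi : (i : ℕ) < m) : subst g c i = 0 := by
  refine coeff_eq_zero_of_dvd (m := m) ?_ hi
  have h' := map_dvd (act g) h
  rwa [map_pow, act_lin, hgv, show lin (![0, 1] : Fin 2 → k) = X 1 by simp [lin_eq]] at h'

variable [IsAlgClosed k]

/-- **Reduction of quartics.** -/
theorem exists_normal (c : Fin (4 + 1) → k) :
    ∃ g : Matrix (Fin 2) (Fin 2) k, g.det = 1 ∧
      ((subst g c 0 = 0 ∧ subst g c 1 = 0) ∨ ∃ p q, subst g c = normalForm p q) := by
  obtain ⟨r, hr⟩ := exists_prodCoeff c
  obtain ⟨g, hg, h0⟩ : ∃ g : Matrix (Fin 2) (Fin 2) k, g.det = 1 ∧ subst g c 0 = 0 := by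
    rcases eq_or_ne (r 0) 0 with h | h
    · refine ⟨1, Matrix.det_one, ?_⟩
      rw [subst_one, ← hr, prodCoeff,
        show prodForm r = 0 from Finset.prod_eq_zero (Finset.mem_univ 0) (by simp [h, lin_eq])]
      exact coeff_zero _
    · obtain ⟨g, hg, hgv⟩ := exists_move h
      refine ⟨g, hg, subst_eq_zero_of_dvd (m := 1) hgv ?_ one_pos⟩
      rw [pow_one, ← hr, formOf_prodCoeff]
      exact Finset.dvd_prod_of_mem _ (Finset.mem_univ 0)
  by_cases h1 : subst g c 1 = 0
  · exact ⟨g, hg, Or.inl ⟨h0, h1⟩⟩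
  set c' := subst g c
  set c'' := subst (shear (-c' 2 / (3 * c' 1))) c'
  have hs : c'' 0 = 0 ∧ c'' 1 = c' 1 ∧ c'' 2 = 0 := by
    refine ⟨?_, ?_, ?_⟩ <;> simp [c'', subst_shear, Fin.sum_univ_five, h0, Nat.choose_two_right]
    field_simp
    ring
  obtain ⟨s, hs2⟩ := IsAlgClosed.exists_pow_nat_eq (c'' 1)⁻¹ (n := 2) two_pos
  have hs0 : s ≠ 0 := fun h => h1 (by
    rw [h, zero_pow two_ne_zero, eq_comm, inv_eq_zero, hs.2.1] at hs2
    exact hs2)
  refine ⟨!![s, 0; 0, s⁻¹] * shear (-c' 2 / (3 * c' 1)) * g, ?_, Or.inr ?_⟩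
  · rw [Matrix.det_mul, Matrix.det_mul, hg]
    simp [shear, Matrix.det_fin_two, hs0]
  refine ⟨subst (!![s, 0; 0, s⁻¹] : Matrix (Fin 2) (Fin 2) k) c'' 3,
    subst (!![s, 0; 0, s⁻¹] : Matrix (Fin 2) (Fin 2) k) c'' 4, ?_⟩
  rw [subst_mul, subst_mul]
  show subst _ c'' = _
  funext i
  fin_cases i
  · simp [subst_diag, normalForm, hs.1]
  · simp [subst_diag, normalForm]
    rw [show c'' 1 = (s ^ 2)⁻¹ by rw [hs2, inv_inv]]
    field_simp
  · simp [subst_diag, normalForm, hs.2.2]
  · simp [normalForm]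
  · simp [normalForm]

/-- An invariant vanishing on the normal forms is zero. -/
theorem eq_zero_of_normal {F : MvPolynomial (Fin 5) k} (hF : IsInv F)
    (h : ∀ p q, eval (normalForm p q) F = 0) : F = 0 := by
  have key : F * (C 4 * invI k ^ 3 - invJ k ^ 2) = 0 := by
    refine MvPolynomial.funext fun c => ?_
    obtain ⟨g, hg, ⟨h0, h1⟩ | ⟨p, q, hpq⟩⟩ := exists_normal c
    · rw [map_zero, map_mul, map_sub, map_mul, map_pow, map_pow, eval_C, ← isInv_invI g hg c,
        ← isInv_invJ g hg c, eval_invI, eval_invJ, h0, h1]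
      ring
    · rw [map_zero, map_mul, ← hF g hg c, hpq, h, zero_mul]
  refine (mul_eq_zero.1 key).resolve_right fun h0 => ?_
  have := congrArg (eval (normalForm (0 : k) 1)) h0
  rw [map_zero, map_sub, map_mul, map_pow, map_pow, eval_C, eval_invI_normal,
    eval_invJ_normal] at this
  norm_num at this

omit [IsAlgClosed k] in
/-- **The invariants of a quartic.** -/
theorem isInv_iff (P : MvPolynomial (Fin 5) k) :
    IsInv P ↔ P ∈ Algebra.adjoin k {invI k, invJ k} := by
  refine ⟨fun hP => ?_, isInv_of_mem⟩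
  set R : MvPolynomial (Fin 2) k := aeval ![0, 1, 0, X 0, X 1] P
  set Q : MvPolynomial (Fin 2) k := aeval ![C (-1 / 3) * X 0, C (-1 / 27) * X 1] R
  set T : MvPolynomial (Fin 5) k := aeval ![invI k, invJ k] Q with hT
  have hTmem : T ∈ Algebra.adjoin k {invI k, invJ k} := by
    rw [show ({invI k, invJ k} : Set (MvPolynomial (Fin 5) k)) = Set.range ![invI k, invJ k] by
      simp [Set.range, Fin.exists_fin_two]; grind, Algebra.adjoin_range_eq_range_aeval]
    exact ⟨Q, rfl⟩
  suffices P = T by rwa [this]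
  let K := AlgebraicClosure k
  refine map_injective (algebraMap k K) (algebraMap k K).injective (sub_eq_zero.1 ?_)
  rw [← map_sub]
  have hcomm : ∀ x, lower 4 K (map (algebraMap k K) x) = map (algebraMap k K) (lower 4 k x) ∧
      raise 4 K (map (algebraMap k K) x) = map (algebraMap k K) (raise 4 k x) := fun x => by
    induction x using MvPolynomial.induction_on with
    | C a => simp
    | add p q hp hq => simp only [map_add, hp.1, hp.2, hq.1, hq.2, and_self]
    | mul_X p i hp =>
      simp only [map_mul, Derivation.leibniz, map_X, hp.1, hp.2, smul_eq_mul, map_add, lower_X,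
        raise_X]
      constructor <;> split_ifs <;>
        simp only [map_mul, map_X, map_natCast, MvPolynomial.C_eq_coe_nat, map_zero, mul_zero]
  obtain ⟨e1, e2⟩ := (invariant_iff (d := 4) (P - T)).1 fun g hg c => by
    rw [map_sub, map_sub, hP g hg c, isInv_of_mem hTmem g hg c]
  refine eq_zero_of_normal ((invariant_iff (d := 4) _).2
    ⟨by rw [(hcomm _).1, e1, map_zero], by rw [(hcomm _).2, e2, map_zero]⟩) fun p q => ?_
  rw [eval_map, ← aeval_def, map_sub, sub_eq_zero]
  have hI : aeval ![0, 1, 0, p, q] (invI k) = -3 * p :=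
    (by simp [invI, map_ofNat] : _ = -(3 * p)).trans (neg_mul _ _).symm
  have hJ : aeval ![0, 1, 0, p, q] (invJ k) = -27 * q :=
    (by simp [invJ, map_ofNat] : _ = -(27 * q)).trans (neg_mul _ _).symm
  simp only [T, Q, R, ← AlgHom.comp_apply, comp_aeval]
  refine congrArg (fun f => aeval f P) (funext fun i => ?_)
  fin_cases i <;> simp [normalForm, hI, hJ, map_ofNat] <;> ring

omit [IsAlgClosed k] in
/-- **`I` and `J` are independent.** -/
theorem algebraicIndependent : AlgebraicIndependent k ![invI k, invJ k] := by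
  rw [algebraicIndependent_iff]
  intro Q hQ
  refine MvPolynomial.funext fun x => ?_
  have := congrArg (eval (normalForm (-x 0 / 3) (-x 1 / 27))) hQ
  rw [← aeval_eq_eval, ← AlgHom.comp_apply, comp_aeval, map_zero] at this
  rw [map_zero, ← aeval_eq_eval, ← this]
  refine congrArg (fun f => aeval f Q) (funext fun i => ?_)
  fin_cases i <;> simp [aeval_eq_eval, eval_invI_normal, eval_invJ_normal] <;> ring

/-- **Repeated roots.** -/
theorem disc_eq_zero_iff (c : Fin (4 + 1) → k) :
    4 * eval c (invI k) ^ 3 = eval c (invJ k) ^ 2 ↔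
      ∃ v : Fin 2 → k, v ≠ 0 ∧ lin v ^ 2 ∣ formOf c := by
  constructor
  · intro h
    obtain ⟨g, hg, hn⟩ := exists_normal c
    suffices ∃ v : Fin 2 → k, v ≠ 0 ∧ lin v ^ 2 ∣ formOf (subst g c) by
      obtain ⟨v, hv, hd⟩ := this
      exact exists_dvd_of_subst hg hv hd
    rw [← isInv_invI g hg c, ← isInv_invJ g hg c] at h
    rcases hn with ⟨h0, h1⟩ | ⟨p, q, hpq⟩
    · refine ⟨![0, 1], fun e => by simpa using congrFun e 1, ?_⟩
      refine ⟨C (subst g c 2) * X 0 ^ 2 + C (subst g c 3) * (X 0 * X 1) + C (subst g c 4) * X 1 ^ 2,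
        ?_⟩
      simp [formOf, Fin.sum_univ_five, lin_eq, h0, h1]
      ring
    · rw [hpq, eval_invI_normal, eval_invJ_normal] at h
      rcases eq_or_ne p 0 with rfl | hp
      · refine ⟨![1, 0], fun e => by simpa using congrFun e 0, X 0 * X 1, ?_⟩
        have hq : q = 0 := by simpa using h.symm
        simp [hpq, hq, formOf, Fin.sum_univ_five, lin_eq, normalForm]
        try ring
      · set r := -3 * q / (2 * p) with hr
        have e1 : p = -3 * r ^ 2 := by
          rw [hr]
          field_simp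
          linear_combination -(1 / 27 : k) * h
        have e2 : q = 2 * r ^ 3 := by
          have : q = -2 * p * r / 3 := by rw [hr]; field_simp
          rw [this, e1]
          ring
        refine ⟨![1, -r], fun e => by simpa using congrFun e 0,
          X 1 * (X 0 + C (2 * r) * X 1), ?_⟩
        simp [hpq, e1, e2, formOf, Fin.sum_univ_five, lin_eq, normalForm]
        simp only [map_ofNat]
        ring
  · rintro ⟨v, hv, hd⟩
    obtain ⟨g, hg, hgv⟩ := exists_move hv
    rw [← isInv_invI g hg c, ← isInv_invJ g hg c, eval_invI, eval_invJ,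
      subst_eq_zero_of_dvd hgv hd (i := 0) (by decide),
      subst_eq_zero_of_dvd hgv hd (i := 1) (by decide)]
    ring

/-- **Triple roots.** -/
theorem null_iff (c : Fin (4 + 1) → k) :
    eval c (invI k) = 0 ∧ eval c (invJ k) = 0 ↔
      ∃ v : Fin 2 → k, v ≠ 0 ∧ lin v ^ 3 ∣ formOf c := by
  constructor
  · intro h
    obtain ⟨g, hg, hn⟩ := exists_normal c
    suffices ∃ v : Fin 2 → k, v ≠ 0 ∧ lin v ^ 3 ∣ formOf (subst g c) by
      obtain ⟨v, hv, hd⟩ := this
      exact exists_dvd_of_subst hg hv hd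
    rw [← isInv_invI g hg c, ← isInv_invJ g hg c] at h
    rcases hn with ⟨h0, h1⟩ | ⟨p, q, hpq⟩
    · refine ⟨![0, 1], fun e => by simpa using congrFun e 1,
        C (subst g c 3) * X 0 + C (subst g c 4) * X 1, ?_⟩
      have h2 : subst g c 2 = 0 := by simpa [eval_invI, h0, h1] using h.1
      simp [formOf, Fin.sum_univ_five, lin_eq, h0, h1, h2]
      ring
    · rw [hpq, eval_invI_normal, eval_invJ_normal] at h
      refine ⟨![1, 0], fun e => by simpa using congrFun e 0, X 1, ?_⟩
      have hp : p = 0 := by simpa using h.1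
      have hq : q = 0 := by simpa using h.2
      simp [hpq, hp, hq, formOf, Fin.sum_univ_five, lin_eq, normalForm]
  · rintro ⟨v, hv, hd⟩
    obtain ⟨g, hg, hgv⟩ := exists_move hv
    rw [← isInv_invI g hg c, ← isInv_invJ g hg c, eval_invI, eval_invJ,
      subst_eq_zero_of_dvd hgv hd (i := 0) (by decide),
      subst_eq_zero_of_dvd hgv hd (i := 1) (by decide),
      subst_eq_zero_of_dvd hgv hd (i := 2) (by decide)]
    constructor <;> ring

end FA.QuarticInvariants
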